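import Fermat.Prelude.Def_CuspForm_HeckeLocal
import Fermat.Prelude.Def_CuspForm_HeckeEvalForms
import Fermat.Prelude.Def_HeckeGalois_EichlerShimura
import Fermat.Prelude.Def_ModularCurve_ModularUnit
import Fermat.Prelude.Thm_ModularFormClass_qCoeff_heckeT
import Fermat.Prelude.Thm_ModularFormClass_qCoeff_heckeU
import Fermat.Prelude.Thm_CongruenceSubgroup_one_mem_strictPeriods_Gamma0
import Mathlib

/-!
# S16, top-level algebra reduction (helper1420, B-team)

`Nat.card (𝕋 ⧸ J) = n` is reduced to two statements about integral weight-2 cusp forms of level `p`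
congruent to the Eisenstein series `δ = ∑ σ'(k) q^k` modulo an integer `M`:

* (LB) there is `f ∈ L` with `a_k(f) ≡ σ'(k) mod n` for all `k ≥ 1`;
* (UB) whenever there is `f ∈ L` with `a_k(f) ≡ σ'(k) mod M` for all `k ≥ 1` (`M ≥ 1`), `M ∣ n`.
-/

set_option autoImplicit false

noncomputable section

namespace Fermat.Agent.S16B.Reduction

open ModularCurve CuspForm ModularFormClass UpperHalfPlane

/-- `σ'(m) = ∑_{d ∣ m, p ∤ d} d`. -/
def sigmaP (p m : ℕ) : ℤ := ∑ d ∈ m.divisors.filter (fun d => ¬ p ∣ d), (d : ℤ)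

section Coeff

variable (N : ℕ) (k : ℤ)

lemma one_mem_sp :
    (1 : ℝ) ∈ ((CongruenceSubgroup.Gamma0 N : Subgroup (GL (Fin 2) ℝ))).strictPeriods :=
  CongruenceSubgroup.one_mem_strictPeriods_Gamma0 N

variable {N k}

lemma qCoeff_add (f g : CuspForm (CongruenceSubgroup.Gamma0 N) k) (n : ℕ) :
    qCoeff (⇑(f + g)) n = qCoeff f n + qCoeff g n := by
  unfold qCoeff
  rw [FunLike.coe_add, ModularForm.qExpansion_add one_pos (one_mem_sp N) f g, map_add]

lemma qCoeff_smul (c : ℂ) (f : CuspForm (CongruenceSubgroup.Gamma0 N) k) (n : ℕ) :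
    qCoeff (⇑(c • f)) n = c * qCoeff f n := by
  unfold qCoeff
  rw [FunLike.coe_smul, ModularForm.qExpansion_smul one_pos (one_mem_sp N) c f]
  simp

lemma qCoeff_zero' (n : ℕ) :
    qCoeff (⇑(0 : CuspForm (CongruenceSubgroup.Gamma0 N) k)) n = 0 := by
  unfold qCoeff
  rw [FunLike.coe_zero, qExpansion_zero]
  simp

lemma qCoeff_zero_eq (f : CuspForm (CongruenceSubgroup.Gamma0 N) k) : qCoeff (⇑f) 0 = 0 :=
  CuspFormClass.qExpansion_coeff_zero f one_pos (one_mem_sp N)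

lemma eq_zero_of_qCoeff (f : CuspForm (CongruenceSubgroup.Gamma0 N) k)
    (h : ∀ n, qCoeff (⇑f) n = 0) : f = 0 := by
  have h1 : qExpansion 1 (⇑f) = 0 := by
    ext n
    simpa [qCoeff] using h n
  haveI : Fact (IsCusp OnePoint.infty
      (CongruenceSubgroup.Gamma0 N : Subgroup (GL (Fin 2) ℝ))) :=
    ⟨Subgroup.isCusp_of_mem_strictPeriods one_pos (one_mem_sp N)⟩
  have h2 := (UpperHalfPlane.qExpansion_eq_zero_iff (h := 1) one_pos
    (SlashInvariantFormClass.periodic_comp_ofComplex f (one_mem_sp N))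
    (CuspFormClass.holo f) (ModularFormClass.bdd_at_infty f)).mp h1
  exact DFunLike.coe_injective h2

lemma mem_intLattice_iff (f : CuspForm (CongruenceSubgroup.Gamma0 N) k) :
    f ∈ intLattice N k ↔ ∀ n : ℕ, ∃ m : ℤ, qCoeff (⇑f) n = (m : ℂ) := by
  constructor
  · intro hf
    induction hf using Submodule.span_induction with
    | mem x hx => exact hx
    | zero => exact fun n => ⟨0, by rw [qCoeff_zero']; simp⟩
    | add x y _ _ hx hy =>
      intro n
      obtain ⟨a, ha⟩ := hx n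
      obtain ⟨b, hb⟩ := hy n
      exact ⟨a + b, by rw [qCoeff_add, ha, hb]; push_cast; ring⟩
    | smul a x _ hx =>
      intro n
      obtain ⟨b, hb⟩ := hx n
      refine ⟨a * b, ?_⟩
      rw [← Int.cast_smul_eq_zsmul ℂ a x, qCoeff_smul, hb]
      push_cast; ring
  · intro h
    exact Submodule.subset_span h

/-- Saturation of the integral lattice. -/
lemma exists_eq_zsmul_of_dvd (f : CuspForm (CongruenceSubgroup.Gamma0 N) k) (d : ℤ) (hd : d ≠ 0)
    (h : ∀ n : ℕ, ∃ m : ℤ, qCoeff (⇑f) n = ((d * m : ℤ) : ℂ)) :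
    ∃ g ∈ intLattice N k, f = d • g := by
  refine ⟨((d : ℂ)⁻¹) • f, ?_, ?_⟩
  · rw [mem_intLattice_iff]
    intro n
    obtain ⟨m, hm⟩ := h n
    refine ⟨m, ?_⟩
    rw [qCoeff_smul, hm]
    have : (d : ℂ) ≠ 0 := by exact_mod_cast hd
    push_cast
    field_simp
  · rw [← Int.cast_smul_eq_zsmul ℂ d, smul_smul, mul_inv_cancel₀ (by exact_mod_cast hd), one_smul]

/-- The integer-valued `n`-th coefficient functional on the integral lattice. -/
def coeffZ (n : ℕ) : ↥(intLattice N k) →ₗ[ℤ] ℤ where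
  toFun f := Classical.choose ((mem_intLattice_iff f.1).1 f.2 n)
  map_add' f g := by
    have hf := Classical.choose_spec ((mem_intLattice_iff f.1).1 f.2 n)
    have hg := Classical.choose_spec ((mem_intLattice_iff g.1).1 g.2 n)
    have hfg := Classical.choose_spec ((mem_intLattice_iff (f + g).1).1 (f + g).2 n)
    have : ((Classical.choose ((mem_intLattice_iff (f + g).1).1 (f + g).2 n) : ℤ) : ℂ) =
        ((Classical.choose ((mem_intLattice_iff f.1).1 f.2 n) +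
          Classical.choose ((mem_intLattice_iff g.1).1 g.2 n) : ℤ) : ℂ) := by
      rw [← hfg, Int.cast_add, ← hf, ← hg]
      exact qCoeff_add f.1 g.1 n
    exact_mod_cast this
  map_smul' a f := by
    have hf := Classical.choose_spec ((mem_intLattice_iff f.1).1 f.2 n)
    have hfg := Classical.choose_spec ((mem_intLattice_iff (a • f).1).1 (a • f).2 n)
    have : ((Classical.choose ((mem_intLattice_iff (a • f).1).1 (a • f).2 n) : ℤ) : ℂ) =
        ((a * Classical.choose ((mem_intLattice_iff f.1).1 f.2 n) : ℤ) : ℂ) := by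
      rw [← hfg, Int.cast_mul, ← hf]
      show qCoeff (⇑(a • (f : CuspForm (CongruenceSubgroup.Gamma0 N) k))) n = _
      rw [← Int.cast_smul_eq_zsmul ℂ a, qCoeff_smul]
    simpa using (Int.cast_injective this)

lemma coeffZ_spec (n : ℕ) (f : ↥(intLattice N k)) :
    ((coeffZ n f : ℤ) : ℂ) = qCoeff (⇑(f : CuspForm (CongruenceSubgroup.Gamma0 N) k)) n :=
  (Classical.choose_spec ((mem_intLattice_iff f.1).1 f.2 n)).symm

lemma coeffZ_zero (f : ↥(intLattice N k)) : coeffZ 0 f = 0 := by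
  have := coeffZ_spec 0 f
  rw [qCoeff_zero_eq] at this
  exact_mod_cast this

lemma eq_zero_of_coeffZ (f : ↥(intLattice N k)) (h : ∀ n, coeffZ n f = 0) : f = 0 := by
  apply Subtype.ext
  apply eq_zero_of_qCoeff
  intro n
  rw [← coeffZ_spec, h n, Int.cast_zero]

/-- Saturation, in terms of `coeffZ`. -/
lemma exists_eq_zsmul_of_dvd_coeffZ (f : ↥(intLattice N k)) (d : ℤ) (hd : d ≠ 0)
    (h : ∀ n : ℕ, d ∣ coeffZ n f) : ∃ g : ↥(intLattice N k), f = d • g := by
  obtain ⟨g, hg, hfg⟩ := exists_eq_zsmul_of_dvd f.1 d hd (fun n => by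
    obtain ⟨m, hm⟩ := h n
    exact ⟨m, by rw [← coeffZ_spec, hm]⟩)
  exact ⟨⟨g, hg⟩, Subtype.ext hfg⟩

end Coeff

section Hecke

variable (p : ℕ) [Fact p.Prime]

/-- The ring hom `ℤ[X_ℓ] → 𝕋` of the statement. -/
abbrev Phi : HeckeAlg →+* ↥(heckeLatticeAlgebra p ∅) :=
  (latticeRestrictHom p ∅).toRingHom.comp (heckeEvalForms p 2)

/-- The image of the Eisenstein ideal in `𝕋`. -/
abbrev eisJ : Ideal ↥(heckeLatticeAlgebra p ∅) := Ideal.map (Phi p) (eisensteinIdeal p)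

/-- The generators `T_ℓ` (`ℓ ≠ p`), `U_p` of `𝕋`. -/
def gen (ℓ : Nat.Primes) : ↥(heckeLatticeAlgebra p ∅) := Phi p (heckeGen ℓ)

lemma gen_apply_of_not_dvd (ℓ : Nat.Primes) (h : ¬ (ℓ : ℕ) ∣ p) (f : ↥(intLattice p 2)) :
    (((gen p ℓ).1 f : ↥(intLattice p 2)) : CuspForm (CongruenceSubgroup.Gamma0 p) 2) =
      CuspForm.heckeTLin 2 ℓ.2 h (f : CuspForm (CongruenceSubgroup.Gamma0 p) 2) := by
  show ((heckeEvalForms p 2 (heckeGen ℓ)).1) f.1 = _
  rw [heckeEvalForms_heckeGen_of_not_dvd h]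
  rfl

lemma gen_apply_of_dvd (ℓ : Nat.Primes) (h : (ℓ : ℕ) ∣ p) (f : ↥(intLattice p 2)) :
    (((gen p ℓ).1 f : ↥(intLattice p 2)) : CuspForm (CongruenceSubgroup.Gamma0 p) 2) =
      CuspForm.heckeULin 2 h (f : CuspForm (CongruenceSubgroup.Gamma0 p) 2) := by
  show ((heckeEvalForms p 2 (heckeGen ℓ)).1) f.1 = _
  rw [heckeEvalForms_heckeGen_of_dvd h]
  rfl

lemma coeffZ_gen_of_not_dvd (ℓ : Nat.Primes) (h : ¬ (ℓ : ℕ) ∣ p) (f : ↥(intLattice p 2))
    (n : ℕ) :
    coeffZ n ((gen p ℓ).1 f) =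
      coeffZ (n * ℓ) f + if (ℓ : ℕ) ∣ n then (ℓ : ℤ) * coeffZ (n / ℓ) f else 0 := by
  apply Int.cast_injective (α := ℂ)
  rw [coeffZ_spec, gen_apply_of_not_dvd p ℓ h, CuspForm.coe_heckeTLin_apply,
    ModularFormClass.qCoeff_heckeT _ (one_mem_sp p) ℓ.2.ne_zero n, ModularForm.coeffHeckeT]
  split_ifs with hd
  · push_cast
    rw [coeffZ_spec, coeffZ_spec]
    norm_num
  · push_cast
    rw [coeffZ_spec]

lemma coeffZ_gen_of_dvd (ℓ : Nat.Primes) (h : (ℓ : ℕ) ∣ p) (f : ↥(intLattice p 2)) (n : ℕ) :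
    coeffZ n ((gen p ℓ).1 f) = coeffZ (n * ℓ) f := by
  apply Int.cast_injective (α := ℂ)
  rw [coeffZ_spec, gen_apply_of_dvd p ℓ h, CuspForm.coe_heckeULin_apply,
    ModularFormClass.qCoeff_heckeU _ (one_mem_sp p) ℓ.2.ne_zero n, ModularForm.coeffHeckeU,
    coeffZ_spec]

lemma heckeEvalForms_surjective (N : ℕ) [NeZero N] (k : ℤ) :
    Function.Surjective (heckeEvalForms N k) := by
  rintro ⟨x, hx⟩
  induction hx using Algebra.adjoin_induction with
  | mem x hx =>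
    rcases hx with ⟨ℓ, hℓ, hℓN, -, rfl⟩ | ⟨q, hqN, hq, -, rfl⟩
    · exact ⟨heckeGen ⟨ℓ, hℓ⟩, by
        rw [heckeEvalForms_heckeGen_of_not_dvd (ℓ := ⟨ℓ, hℓ⟩) hℓN]; rfl⟩
    · exact ⟨heckeGen ⟨q, hq⟩, by
        rw [heckeEvalForms_heckeGen_of_dvd (q := ⟨q, hq⟩) hqN]; rfl⟩
  | algebraMap r => exact ⟨MvPolynomial.C r, by rw [heckeEvalForms_C]; rfl⟩
  | add x y hx hy ihx ihy =>
    obtain ⟨a, ha⟩ := ihx
    obtain ⟨b, hb⟩ := ihy
    exact ⟨a + b, by rw [map_add, ha, hb]; rfl⟩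
  | mul x y hx hy ihx ihy =>
    obtain ⟨a, ha⟩ := ihx
    obtain ⟨b, hb⟩ := ihy
    exact ⟨a * b, by rw [map_mul, ha, hb]; rfl⟩

lemma Phi_surjective : Function.Surjective (Phi p) :=
  (latticeRestrictHom_surjective p ∅).comp (heckeEvalForms_surjective p 2)

lemma Phi_C (a : ℤ) : Phi p (MvPolynomial.C a) = (a : ↥(heckeLatticeAlgebra p ∅)) :=
  eq_intCast ((Phi p).comp MvPolynomial.C) a

lemma Phi_sub_mem (P : HeckeAlg) :
    Phi p P - ((MvPolynomial.aeval (eisensteinSystem p) P : ℤ) : ↥(heckeLatticeAlgebra p ∅))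
      ∈ eisJ p := by
  have h1 : P - MvPolynomial.C (MvPolynomial.aeval (eisensteinSystem p) P) ∈ eisensteinIdeal p := by
    rw [eisensteinIdeal, mem_eigenIdeal_iff, map_sub, MvPolynomial.aeval_C]
    simp
  have h2 := Ideal.mem_map_of_mem (Phi p) h1
  rwa [map_sub, Phi_C] at h2

/-- Structure of the quotient: it is `ℤ/n` as soon as `n ∈ J` and `c ∈ J → n ∣ c`. -/
theorem natCard_quotient_eq (n : ℕ)
    (h1 : ((n : ℤ) : ↥(heckeLatticeAlgebra p ∅)) ∈ eisJ p)
    (h2 : ∀ c : ℤ, (c : ↥(heckeLatticeAlgebra p ∅)) ∈ eisJ p → (n : ℤ) ∣ c) :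
    Nat.card (↥(heckeLatticeAlgebra p ∅) ⧸ eisJ p) = n := by
  let ι : ℤ →+* ↥(heckeLatticeAlgebra p ∅) ⧸ eisJ p := Int.castRingHom _
  have hι : ∀ c : ℤ, ι c = Ideal.Quotient.mk (eisJ p) (c : ↥(heckeLatticeAlgebra p ∅)) := by
    intro c
    simp [ι]
  have hsurj : Function.Surjective ι := by
    intro x
    obtain ⟨t, rfl⟩ := Ideal.Quotient.mk_surjective x
    obtain ⟨P, rfl⟩ := Phi_surjective p t
    refine ⟨MvPolynomial.aeval (eisensteinSystem p) P, ?_⟩
    rw [hι]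
    exact (Ideal.Quotient.eq.mpr (Phi_sub_mem p P)).symm
  have hker : RingHom.ker ι = Ideal.span {(n : ℤ)} := by
    ext c
    rw [RingHom.mem_ker, Ideal.mem_span_singleton, hι, Ideal.Quotient.eq_zero_iff_mem]
    constructor
    · exact h2 c
    · rintro ⟨d, rfl⟩
      push_cast
      exact Ideal.mul_mem_right _ _ h1
  have e : (ℤ ⧸ Ideal.span {(n : ℤ)}) ≃+* ↥(heckeLatticeAlgebra p ∅) ⧸ eisJ p :=
    (Ideal.quotEquivOfEq hker.symm).trans (RingHom.quotientKerEquivOfSurjective hsurj)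
  rw [← Nat.card_congr e.toEquiv, Nat.card_congr (Int.quotientSpanNatEquivZMod n).toEquiv,
    Nat.card_zmod]

/-- Hecke eigen-relations of the Eisenstein `q`-series `δ = ∑ δ(k) q^k`. -/
structure EisRel (δ : ℕ → ℤ) : Prop where
  one : δ 1 = 1
  T : ∀ ℓ : ℕ, ℓ.Prime → ℓ ≠ p → ∀ k : ℕ, 1 ≤ k →
    δ (k * ℓ) + (if ℓ ∣ k then (ℓ : ℤ) * δ (k / ℓ) else 0) = (1 + ℓ) * δ k
  U : ∀ k : ℕ, 1 ≤ k → δ (k * p) = δ k

lemma coe_intCast_apply (a : ℤ) (f : ↥(intLattice p 2)) :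
    ((a : ↥(heckeLatticeAlgebra p ∅)) : Module.End ℤ ↥(intLattice p 2)) f = a • f := by
  rw [SubringClass.coe_intCast, Module.End.intCast_apply]

lemma coe_mul_apply (s t : ↥(heckeLatticeAlgebra p ∅)) (f : ↥(intLattice p 2)) :
    ((s * t : ↥(heckeLatticeAlgebra p ∅)) : Module.End ℤ ↥(intLattice p 2)) f = s.1 (t.1 f) :=
  rfl

lemma coe_add_apply (s t : ↥(heckeLatticeAlgebra p ∅)) (f : ↥(intLattice p 2)) :
    ((s + t : ↥(heckeLatticeAlgebra p ∅)) : Module.End ℤ ↥(intLattice p 2)) f = s.1 f + t.1 f :=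
  rfl

section LB

variable {p}
variable {δ : ℕ → ℤ} (hδ : EisRel p δ) {n : ℕ} (hn : n ≠ 0)
  (f₀ : ↥(intLattice p 2)) (hf₀ : ∀ k : ℕ, 1 ≤ k → coeffZ k f₀ ≡ δ k [ZMOD n])

include hδ hn hf₀

lemma lb_gen (ℓ : Nat.Primes) :
    ∃ g : ↥(intLattice p 2), (gen p ℓ).1 f₀ = eisensteinSystem p ℓ • f₀ + (n : ℤ) • g := by
  have hp : p.Prime := Fact.out
  suffices h : ∀ k : ℕ, (n : ℤ) ∣ coeffZ k ((gen p ℓ).1 f₀ - eisensteinSystem p ℓ • f₀) by
    obtain ⟨g, hg⟩ := exists_eq_zsmul_of_dvd_coeffZ _ (n : ℤ) (by exact_mod_cast hn) h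
    exact ⟨g, by rw [← hg]; abel⟩
  intro k
  rcases Nat.eq_zero_or_pos k with rfl | hk
  · rw [coeffZ_zero]; exact dvd_zero _
  rw [map_sub, map_smul, smul_eq_mul]
  apply Int.ModEq.dvd
  by_cases h : (ℓ : ℕ) ∣ p
  · have hℓp : (ℓ : ℕ) = p := (Nat.prime_dvd_prime_iff_eq ℓ.2 hp).mp h
    rw [eisensteinSystem_of_dvd h, one_mul, coeffZ_gen_of_dvd p ℓ h, hℓp]
    calc coeffZ k f₀ ≡ δ k [ZMOD n] := hf₀ k hk
      _ = δ (k * p) := (hδ.U k hk).symm
      _ ≡ coeffZ (k * p) f₀ [ZMOD n] := (hf₀ _ (Nat.mul_pos hk hp.pos)).symm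
  · have hℓp : (ℓ : ℕ) ≠ p := fun h' => h (h' ▸ dvd_rfl)
    rw [eisensteinSystem_of_not_dvd h, coeffZ_gen_of_not_dvd p ℓ h]
    have hT := hδ.T ℓ ℓ.2 hℓp k hk
    calc (1 + ((ℓ : ℕ) : ℤ)) * coeffZ k f₀ ≡ (1 + ((ℓ : ℕ) : ℤ)) * δ k [ZMOD n] :=
          (hf₀ k hk).mul_left _
      _ = δ (k * ℓ) + (if (ℓ : ℕ) ∣ k then ((ℓ : ℕ) : ℤ) * δ (k / ℓ) else 0) := hT.symm
      _ ≡ coeffZ (k * ℓ) f₀ +
            (if (ℓ : ℕ) ∣ k then ((ℓ : ℕ) : ℤ) * coeffZ (k / ℓ) f₀ else 0) [ZMOD n] := by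
          refine Int.ModEq.add (hf₀ _ (Nat.mul_pos hk ℓ.2.pos)).symm ?_
          split_ifs with hd
          · exact ((hf₀ _ (Nat.div_pos (Nat.le_of_dvd hk hd) ℓ.2.pos)).symm).mul_left _
          · rfl

lemma lb_poly (P : HeckeAlg) :
    ∃ g : ↥(intLattice p 2),
      (Phi p P).1 f₀ = (MvPolynomial.aeval (eisensteinSystem p) P : ℤ) • f₀ + (n : ℤ) • g := by
  induction P using MvPolynomial.induction_on with
  | C a =>
    refine ⟨0, ?_⟩
    rw [Phi_C, coe_intCast_apply, MvPolynomial.aeval_C]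
    simp
  | add P Q hP hQ =>
    obtain ⟨g, hg⟩ := hP
    obtain ⟨g', hg'⟩ := hQ
    refine ⟨g + g', ?_⟩
    rw [map_add, coe_add_apply, hg, hg', map_add, add_smul, smul_add]
    abel
  | mul_X P ℓ hP =>
    obtain ⟨g, hg⟩ := hP
    obtain ⟨g₁, hg₁⟩ := lb_gen hδ hn f₀ hf₀ ℓ
    refine ⟨eisensteinSystem p ℓ • g + (Phi p P).1 g₁, ?_⟩
    have h1 : (Phi p (P * MvPolynomial.X ℓ)).1 f₀ = (Phi p P).1 ((gen p ℓ).1 f₀) := by
      rw [map_mul]; rfl
    rw [h1, hg₁, map_add, map_smul, map_smul, hg, map_mul, MvPolynomial.aeval_X, smul_add,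
      smul_add, smul_smul, smul_smul, smul_smul, mul_comm (eisensteinSystem p ℓ)]
    rw [mul_comm (eisensteinSystem p ℓ) (n : ℤ)]
    abel

/-- Lower bound: if a form in the lattice is congruent to `δ` modulo `n`, then `c ∈ J → n ∣ c`. -/
theorem lb (c : ℤ) (hc : (c : ↥(heckeLatticeAlgebra p ∅)) ∈ eisJ p) : (n : ℤ) ∣ c := by
  let K : Ideal ↥(heckeLatticeAlgebra p ∅) :=
    { carrier := {t | ∃ g : ↥(intLattice p 2), t.1 f₀ = (n : ℤ) • g}
      add_mem' := by
        rintro s t ⟨g, hg⟩ ⟨g', hg'⟩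
        exact ⟨g + g', by rw [coe_add_apply, hg, hg', smul_add]⟩
      zero_mem' := ⟨0, by simp⟩
      smul_mem' := by
        rintro s t ⟨g, hg⟩
        exact ⟨s.1 g, by rw [smul_eq_mul, coe_mul_apply, hg, map_smul]⟩ }
  have hJK : eisJ p ≤ K := by
    rw [Ideal.map_le_iff_le_comap]
    intro P hP
    rw [eisensteinIdeal, mem_eigenIdeal_iff] at hP
    obtain ⟨g, hg⟩ := lb_poly hδ hn f₀ hf₀ P
    rw [hP, zero_smul, zero_add] at hg
    exact ⟨g, hg⟩
  obtain ⟨g, hg⟩ := hJK hc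
  rw [coe_intCast_apply] at hg
  have h1 := congrArg (coeffZ 1) hg
  rw [map_smul, map_smul, smul_eq_mul, smul_eq_mul] at h1
  have h2 : coeffZ 1 f₀ ≡ 1 [ZMOD n] := by
    have := hf₀ 1 le_rfl
    rwa [hδ.one] at this
  have h3 : c * coeffZ 1 f₀ ≡ c * 1 [ZMOD n] := h2.mul_left c
  rw [h1, mul_one] at h3
  have h4 : (n : ℤ) ∣ (n : ℤ) * coeffZ 1 g - c := by
    have := h3.symm.dvd
    exact this
  have h5 : (n : ℤ) ∣ (n : ℤ) * coeffZ 1 g := dvd_mul_right _ _
  exact (Int.dvd_iff_dvd_of_dvd_sub h4).mp h5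

end LB

section UB

variable {p}
variable {δ : ℕ → ℤ} (hδ : EisRel p δ)

include hδ

/-- "`a_k(f) = a_1(T_k f)`": the Hecke operators `T_k ∈ 𝕋`. -/
lemma exists_heckeOp (k : ℕ) (hk : 1 ≤ k) : ∃ t : ↥(heckeLatticeAlgebra p ∅),
    (∀ f : ↥(intLattice p 2), coeffZ k f = coeffZ 1 (t.1 f)) ∧
    (∀ (R : Type) [CommRing R] (ψ : ↥(heckeLatticeAlgebra p ∅) →+* R),
      (∀ ℓ, ψ (gen p ℓ) = ((eisensteinSystem p ℓ : ℤ) : R)) → ψ t = ((δ k : ℤ) : R)) := by
  have hp : p.Prime := Fact.out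
  induction k using Nat.strong_induction_on with
  | _ k ih =>
    rcases Nat.lt_or_ge 1 k with hk1 | hk1
    swap
    · have hk1' : k = 1 := le_antisymm hk1 hk
      subst hk1'
      refine ⟨1, fun f => rfl, fun R _ ψ _ => ?_⟩
      rw [map_one, hδ.one, Int.cast_one]
    · have hr : k.minFac.Prime := Nat.minFac_prime (by omega)
      have hrk : k.minFac ∣ k := Nat.minFac_dvd k
      obtain ⟨k', hk'⟩ := hrk
      have hk'pos : 1 ≤ k' := by
        rcases Nat.eq_zero_or_pos k' with h0 | h0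
        · subst h0; omega
        · exact h0
      have hk'lt : k' < k := by
        have := hr.two_le
        nlinarith
      have hkk' : k = k' * k.minFac := by rw [mul_comm]; exact hk'
      obtain ⟨t', ht'1, ht'2⟩ := ih k' hk'lt hk'pos
      set r := k.minFac with hrdef
      by_cases hrp : r ∣ p
      · have hrp' : r = p := (Nat.prime_dvd_prime_iff_eq hr hp).mp hrp
        refine ⟨t' * gen p ⟨r, hr⟩, fun f => ?_, fun R _ ψ hψ => ?_⟩
        · rw [coe_mul_apply, ← ht'1, coeffZ_gen_of_dvd p ⟨r, hr⟩ hrp, ← hkk']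
        · rw [map_mul, ht'2 R ψ hψ, hψ, eisensteinSystem_of_dvd (ℓ := ⟨r, hr⟩) hrp, Int.cast_one,
            mul_one, hkk', hrp', hδ.U k' hk'pos]
      · have hrp' : r ≠ p := fun h => hrp (h ▸ dvd_rfl)
        have hT := hδ.T r hr hrp' k' hk'pos
        by_cases hd : r ∣ k'
        · have hk''pos : 1 ≤ k' / r := Nat.div_pos (Nat.le_of_dvd hk'pos hd) hr.pos
          have hk''lt : k' / r < k := lt_of_le_of_lt (Nat.div_le_self _ _) hk'lt
          obtain ⟨t'', ht''1, ht''2⟩ := ih (k' / r) hk''lt hk''pos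
          rw [if_pos hd] at hT
          refine ⟨t' * gen p ⟨r, hr⟩ - ((r : ℤ) : ↥(heckeLatticeAlgebra p ∅)) * t'',
            fun f => ?_, fun R _ ψ hψ => ?_⟩
          · have h1 : ((t' * gen p ⟨r, hr⟩ - ((r : ℤ) : ↥(heckeLatticeAlgebra p ∅)) * t'' :
                ↥(heckeLatticeAlgebra p ∅)) : Module.End ℤ ↥(intLattice p 2)) f =
                t'.1 ((gen p ⟨r, hr⟩).1 f) - (r : ℤ) • t''.1 f := by
              show t'.1 ((gen p ⟨r, hr⟩).1 f) -
                ((r : ℤ) : ↥(heckeLatticeAlgebra p ∅)).1 (t''.1 f) = _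
              rw [coe_intCast_apply]
            rw [h1, map_sub, map_smul, ← ht'1, ← ht''1, coeffZ_gen_of_not_dvd p ⟨r, hr⟩ hrp,
              if_pos hd, ← hkk', smul_eq_mul]
            simp
          · rw [map_sub, map_mul, map_mul, ht'2 R ψ hψ, ht''2 R ψ hψ, hψ,
              eisensteinSystem_of_not_dvd (ℓ := ⟨r, hr⟩) hrp, map_intCast, hkk']
            have : δ (k' * r) = (1 + (r : ℤ)) * δ k' - (r : ℤ) * δ (k' / r) := by linarith
            rw [this]
            push_cast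
            ring
        · rw [if_neg hd, add_zero] at hT
          refine ⟨t' * gen p ⟨r, hr⟩, fun f => ?_, fun R _ ψ hψ => ?_⟩
          · rw [coe_mul_apply, ← ht'1, coeffZ_gen_of_not_dvd p ⟨r, hr⟩ hrp, if_neg hd, add_zero,
              ← hkk']
          · rw [map_mul, ht'2 R ψ hψ, hψ, eisensteinSystem_of_not_dvd (ℓ := ⟨r, hr⟩) hrp, hkk',
              hT]
            push_cast
            ring

lemma dvd_coeffZ_of_pairing (d : ℤ) (f : ↥(intLattice p 2))
    (h : ∀ t : ↥(heckeLatticeAlgebra p ∅), d ∣ coeffZ 1 (t.1 f)) (k : ℕ) : d ∣ coeffZ k f := by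
  rcases Nat.eq_zero_or_pos k with rfl | hk
  · rw [coeffZ_zero]; exact dvd_zero _
  · obtain ⟨t, ht, -⟩ := exists_heckeOp hδ k hk
    rw [ht]
    exact h t

omit hδ in
variable (p) in
/-- The pairing `(f, t) ↦ a_1(t f)`. -/
def pairL : ↥(intLattice p 2) →ₗ[ℤ] (↥(heckeLatticeAlgebra p ∅) →ₗ[ℤ] ℤ) :=
  LinearMap.mk₂ ℤ (fun f t => coeffZ 1 (t.1 f))
    (fun f g t => by simp only [map_add])
    (fun c f t => by simp only [map_smul])
    (fun f s t => by rw [coe_add_apply, map_add])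
    (fun c f t => by
      show coeffZ 1 ((c • t.1) f) = _
      rw [LinearMap.smul_apply, map_smul])

omit hδ in
lemma pairL_apply (f : ↥(intLattice p 2)) (t : ↥(heckeLatticeAlgebra p ∅)) :
    pairL p f t = coeffZ 1 (t.1 f) := rfl

lemma pairL_injective : Function.Injective (pairL p) := by
  rw [injective_iff_map_eq_zero]
  intro f hf
  apply eq_zero_of_coeffZ
  intro k
  have := dvd_coeffZ_of_pairing hδ 0 f (fun t => by
    rw [← pairL_apply, hf]; simp) k
  simpa using this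

lemma pairL_flip_injective : Function.Injective (pairL p).flip := by
  rw [injective_iff_map_eq_zero]
  intro t ht
  apply Subtype.ext
  apply LinearMap.ext
  intro f
  show t.1 f = 0
  apply pairL_injective hδ
  apply LinearMap.ext
  intro s
  rw [pairL_apply, ← coe_mul_apply, mul_comm, coe_mul_apply]
  have := LinearMap.congr_fun ht (s.1 f)
  simpa [pairL_apply] using this

/-- Perfectness of the pairing on the `L`-side: every functional on `𝕋` is `t ↦ a_1(t f)`. -/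
theorem exists_pairing_eq (φ : ↥(heckeLatticeAlgebra p ∅) →ₗ[ℤ] ℤ) :
    ∃ f : ↥(intLattice p 2), ∀ t : ↥(heckeLatticeAlgebra p ∅), coeffZ 1 (t.1 f) = φ t := by
  haveI : Module.Finite ℤ ↥(intLattice p 2) := intLattice.moduleFinite p
  haveI : Module.Free ℤ ↥(intLattice p 2) := intLattice.moduleFree p
  have h1 : Module.finrank ℤ ↥(intLattice p 2) ≤ Module.finrank ℤ ↥(heckeLatticeAlgebra p ∅) := by
    have := LinearMap.finrank_le_finrank_of_injective (pairL_injective hδ)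
    rwa [Module.finrank_linearMap_self] at this
  have h2 : Module.finrank ℤ ↥(heckeLatticeAlgebra p ∅) ≤ Module.finrank ℤ ↥(intLattice p 2) := by
    have := LinearMap.finrank_le_finrank_of_injective (pairL_flip_injective hδ)
    rwa [Module.finrank_linearMap_self] at this
  have h3 : Module.finrank ℤ (LinearMap.range (pairL p)) = Module.finrank ℤ ↥(intLattice p 2) :=
    LinearMap.finrank_range_of_inj (pairL_injective hδ)
  have h4 := (LinearMap.range (pairL p)).finrank_quotient_add_finrank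
  rw [Module.finrank_linearMap_self, h3] at h4
  have h5 : Module.finrank ℤ
      ((↥(heckeLatticeAlgebra p ∅) →ₗ[ℤ] ℤ) ⧸ LinearMap.range (pairL p)) = 0 := by omega
  rw [Module.finrank_eq_zero_iff] at h5
  obtain ⟨a, ha, hax⟩ := h5 (Submodule.Quotient.mk φ)
  rw [← Submodule.Quotient.mk_smul, Submodule.Quotient.mk_eq_zero] at hax
  obtain ⟨f₁, hf₁⟩ := hax
  have hf₁' : ∀ t : ↥(heckeLatticeAlgebra p ∅), coeffZ 1 (t.1 f₁) = a * φ t := by
    intro t
    rw [← pairL_apply, hf₁]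
    simp
  obtain ⟨f, hf⟩ := exists_eq_zsmul_of_dvd_coeffZ f₁ a ha
    (dvd_coeffZ_of_pairing hδ a f₁ (fun t => ⟨φ t, hf₁' t⟩))
  refine ⟨f, fun t => ?_⟩
  have := hf₁' t
  rw [hf, map_smul, map_smul, smul_eq_mul] at this
  exact mul_left_cancel₀ ha this

/-- Upper bound: `n ∈ J` provided every congruence `f ≡ δ mod M` with `f` in the lattice
forces `M ∣ n`. -/
theorem ub {n : ℕ} (hn : n ≠ 0)
    (hUB : ∀ M : ℕ, M ≠ 0 →
      (∃ f : ↥(intLattice p 2), ∀ k : ℕ, 1 ≤ k → coeffZ k f ≡ δ k [ZMOD M]) → M ∣ n) :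
    ((n : ℤ) : ↥(heckeLatticeAlgebra p ∅)) ∈ eisJ p := by
  -- key claim
  have key : ∀ M : ℕ, M ≠ 0 →
      (∀ c : ℤ, (c : ↥(heckeLatticeAlgebra p ∅)) ∈ eisJ p → (M : ℤ) ∣ c) → M ∣ n := by
    intro M hM hJ
    apply hUB M hM
    -- the character `χ : ℤ[X] → ZMod M`
    let χ : HeckeAlg →+* ZMod M :=
      (Int.castRingHom (ZMod M)).comp (MvPolynomial.aeval (eisensteinSystem p)).toRingHom
    have hker : RingHom.ker (Phi p) ≤ RingHom.ker χ := by
      intro P hP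
      rw [RingHom.mem_ker] at hP ⊢
      have h1 := Phi_sub_mem p P
      rw [hP, zero_sub, ← Int.cast_neg] at h1
      have h2 := hJ _ h1
      show ((MvPolynomial.aeval (eisensteinSystem p) P : ℤ) : ZMod M) = 0
      rw [ZMod.intCast_zmod_eq_zero_iff_dvd]
      simpa using h2
    let ψ : ↥(heckeLatticeAlgebra p ∅) →+* ZMod M :=
      (Phi p).liftOfSurjective (Phi_surjective p) ⟨χ, hker⟩
    have hψ : ∀ P, ψ (Phi p P) = χ P := fun P =>
      RingHom.liftOfSurjective_comp_apply (Phi p) (Phi_surjective p) ⟨χ, hker⟩ P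
    have hψgen : ∀ ℓ, ψ (gen p ℓ) = ((eisensteinSystem p ℓ : ℤ) : ZMod M) := by
      intro ℓ
      rw [gen, hψ]
      show ((MvPolynomial.aeval (eisensteinSystem p) (heckeGen ℓ) : ℤ) : ZMod M) = _
      rw [aeval_heckeGen]
    -- additive lift
    obtain ⟨ψ', hψ'⟩ := Module.projective_lifting_property
      ((Int.castAddHom (ZMod M)).toIntLinearMap) (ψ.toAddMonoidHom.toIntLinearMap)
      (ZMod.intCast_surjective)
    have hψ'' : ∀ t, ((ψ' t : ℤ) : ZMod M) = ψ t := fun t => LinearMap.congr_fun hψ' t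
    obtain ⟨f, hf⟩ := exists_pairing_eq hδ ψ'
    refine ⟨f, fun k hk => ?_⟩
    obtain ⟨t, ht1, ht2⟩ := exists_heckeOp hδ k hk
    rw [← ZMod.intCast_eq_intCast_iff, ht1 f, hf t, hψ'' t, ht2 (ZMod M) ψ hψgen]
  -- conclude with the generator of the kernel
  let ι : ℤ →+* ↥(heckeLatticeAlgebra p ∅) ⧸ eisJ p := Int.castRingHom _
  have hι : ∀ c : ℤ, ι c = 0 ↔ (c : ↥(heckeLatticeAlgebra p ∅)) ∈ eisJ p := by
    intro c
    rw [← Ideal.Quotient.eq_zero_iff_mem]
    simp [ι]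
  set g := Submodule.IsPrincipal.generator (RingHom.ker ι) with hg
  have hspan : Ideal.span {g} = RingHom.ker ι := Ideal.span_singleton_generator _
  have hmem : ∀ c : ℤ, (c : ↥(heckeLatticeAlgebra p ∅)) ∈ eisJ p ↔ g ∣ c := by
    intro c
    rw [← hι, ← RingHom.mem_ker, ← hspan, Ideal.mem_span_singleton]
  by_cases hg0 : g = 0
  · exfalso
    have := key (n + 1) (by omega) (fun c hc => by
      have := (hmem c).mp hc
      rw [hg0, zero_dvd_iff] at this
      rw [this]; exact dvd_zero _)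
    have := Nat.le_of_dvd (Nat.pos_of_ne_zero hn) this
    omega
  · have := key g.natAbs (by simpa using hg0) (fun c hc => by
      rw [Int.natAbs_dvd]; exact (hmem c).mp hc)
    rw [hmem]
    exact Int.natAbs_dvd_natAbs.mp (by simpa using this)

end UB

end Hecke

section Sigma

open ArithmeticFunction
open scoped ArithmeticFunction.zeta

variable (p : ℕ)

/-- `d ↦ d` if `p ∤ d`, `0` otherwise, as an arithmetic function. -/
def sigF : ArithmeticFunction ℤ := ⟨fun d => if p ∣ d then 0 else (d : ℤ), by simp⟩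

lemma sigF_apply (d : ℕ) : sigF p d = if p ∣ d then 0 else (d : ℤ) := rfl

lemma sigmaP_eq (m : ℕ) : sigmaP p m = ((ζ : ArithmeticFunction ℤ) * sigF p) m := by
  rw [coe_zeta_mul_apply, sigmaP, Finset.sum_filter]
  refine Finset.sum_congr rfl fun d _ => ?_
  rw [sigF_apply]
  split_ifs <;> rfl

variable {p}

lemma sigF_isMultiplicative (hp : p.Prime) : (sigF p).IsMultiplicative := by
  refine ⟨?_, ?_⟩
  · rw [sigF_apply, if_neg (by simpa using hp.one_lt.ne')]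
    simp
  · intro m n _
    rw [sigF_apply, sigF_apply, sigF_apply]
    by_cases hm : p ∣ m
    · rw [if_pos hm, if_pos (Dvd.dvd.mul_right hm n), zero_mul]
    · by_cases hn : p ∣ n
      · rw [if_pos hn, if_pos (Dvd.dvd.mul_left hn m), mul_zero]
      · rw [if_neg hm, if_neg hn, if_neg (by
          rw [hp.dvd_mul]; tauto)]
        push_cast; ring

lemma sigmaP_mul_of_coprime (hp : p.Prime) {m n : ℕ} (h : m.Coprime n) :
    sigmaP p (m * n) = sigmaP p m * sigmaP p n := by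
  rw [sigmaP_eq, sigmaP_eq, sigmaP_eq]
  exact (isMultiplicative_zeta.natCast.mul (sigF_isMultiplicative hp)).map_mul_of_coprime h

lemma sigmaP_prime_pow_of_ne {ℓ : ℕ} (hℓ : ℓ.Prime) (hℓp : ℓ ≠ p) (hp : p.Prime) (a : ℕ) :
    sigmaP p (ℓ ^ a) = ∑ j ∈ Finset.range (a + 1), (ℓ : ℤ) ^ j := by
  rw [sigmaP, Finset.filter_true_of_mem, Nat.divisors_prime_pow hℓ, Finset.sum_map]
  · simp
  · intro d hd
    rw [Nat.mem_divisors] at hd
    intro hpd
    have := (Nat.prime_dvd_prime_iff_eq hp hℓ).mp (hp.dvd_of_dvd_pow (hpd.trans hd.1))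
    exact hℓp this.symm

lemma sigmaP_self_pow (hp : p.Prime) (a : ℕ) : sigmaP p (p ^ a) = 1 := by
  rw [sigmaP, Nat.divisors_prime_pow hp, Finset.sum_filter, Finset.sum_map,
    Finset.sum_eq_single_of_mem 0 (by simp)]
  · simp [hp.one_lt.ne']
  · intro j _ hj
    rw [if_neg]
    simp only [Function.Embedding.coeFn_mk, not_not]
    exact dvd_pow_self p hj

theorem eisRel_sigmaP [Fact p.Prime] : EisRel p (sigmaP p) := by
  have hp : p.Prime := Fact.out
  refine ⟨?_, ?_, ?_⟩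
  · simpa using sigmaP_self_pow hp 0
  · intro ℓ hℓ hℓp k hk
    obtain ⟨a, m, hm, rfl⟩ := Nat.exists_eq_pow_mul_and_not_dvd (by omega : k ≠ 0) ℓ hℓ.ne_one
    have hcop : ∀ b : ℕ, (ℓ ^ b).Coprime m := fun b =>
      Nat.Coprime.pow_left b ((Nat.Prime.coprime_iff_not_dvd hℓ).2 hm)
    have h1 : ℓ ^ a * m * ℓ = ℓ ^ (a + 1) * m := by ring
    rw [h1, sigmaP_mul_of_coprime hp (hcop _), sigmaP_mul_of_coprime hp (hcop _),
      sigmaP_prime_pow_of_ne hℓ hℓp hp, sigmaP_prime_pow_of_ne hℓ hℓp hp]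
    rcases Nat.eq_zero_or_pos a with rfl | ha
    · rw [if_neg (by simpa using hm)]
      simp [Finset.sum_range_succ]
    · obtain ⟨b, rfl⟩ : ∃ b, a = b + 1 := ⟨a - 1, by omega⟩
      have h2 : ℓ ^ (b + 1) * m / ℓ = ℓ ^ b * m := by
        rw [pow_succ, mul_assoc, mul_comm ℓ m, ← mul_assoc]
        exact Nat.mul_div_cancel _ hℓ.pos
      rw [if_pos (Dvd.dvd.mul_right (dvd_pow_self ℓ (by omega)) m), h2,
        sigmaP_mul_of_coprime hp (hcop _), sigmaP_prime_pow_of_ne hℓ hℓp hp]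
      simp only [Finset.sum_range_succ]
      ring
  · intro k hk
    obtain ⟨a, m, hm, rfl⟩ := Nat.exists_eq_pow_mul_and_not_dvd (by omega : k ≠ 0) p hp.ne_one
    have hcop : ∀ b : ℕ, (p ^ b).Coprime m := fun b =>
      Nat.Coprime.pow_left b ((Nat.Prime.coprime_iff_not_dvd hp).2 hm)
    have h1 : p ^ a * m * p = p ^ (a + 1) * m := by ring
    rw [h1, sigmaP_mul_of_coprime hp (hcop _), sigmaP_mul_of_coprime hp (hcop _),
      sigmaP_self_pow hp, sigmaP_self_pow hp]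

end Sigma

section Main

variable (p : ℕ) [Fact p.Prime]

/-- `EisCong p M`: there is a weight-2 cusp form of level `p` whose `q`-expansion coefficients
`a_k`, `k ≥ 1`, are integers congruent to `σ'(k)` modulo `M`. -/
def EisCong (M : ℕ) : Prop :=
  ∃ f : CuspForm (CongruenceSubgroup.Gamma0 p) 2,
    ∀ k : ℕ, 1 ≤ k → ∃ m : ℤ, qCoeff (⇑f) k = (m : ℂ) ∧ m ≡ sigmaP p k [ZMOD M]

omit [Fact p.Prime] in
lemma eisCong_iff (M : ℕ) : EisCong p M ↔
    ∃ f : ↥(intLattice p 2), ∀ k : ℕ, 1 ≤ k → coeffZ k f ≡ sigmaP p k [ZMOD M] := by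
  constructor
  · rintro ⟨f, hf⟩
    have hmem : f ∈ intLattice p 2 := by
      rw [mem_intLattice_iff]
      intro k
      rcases Nat.eq_zero_or_pos k with rfl | hk
      · exact ⟨0, by rw [qCoeff_zero_eq]; simp⟩
      · obtain ⟨m, hm, -⟩ := hf k hk
        exact ⟨m, hm⟩
    refine ⟨⟨f, hmem⟩, fun k hk => ?_⟩
    obtain ⟨m, hm, hm'⟩ := hf k hk
    have : coeffZ k (⟨f, hmem⟩ : ↥(intLattice p 2)) = m := by
      apply Int.cast_injective (α := ℂ)
      rw [coeffZ_spec, hm]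
    rw [this]
    exact hm'
  · rintro ⟨f, hf⟩
    exact ⟨f.1, fun k hk => ⟨coeffZ k f, (coeffZ_spec k f).symm, hf k hk⟩⟩

omit [Fact p.Prime] in
lemma eisCong_one : EisCong p 1 :=
  ⟨0, fun k _ => ⟨0, by rw [qCoeff_zero']; simp, Int.modEq_one⟩⟩

omit [Fact p.Prime] in
lemma eisensteinNumerator_ne_zero (hp : p.Prime) : eisensteinNumerator p ≠ 0 := by
  unfold eisensteinNumerator
  have h1 : 0 < p - 1 := by have := hp.two_le; omega
  have h2 : Nat.gcd (p - 1) 12 ∣ p - 1 := Nat.gcd_dvd_left _ _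
  have h3 : 0 < Nat.gcd (p - 1) 12 := Nat.gcd_pos_of_pos_left _ h1
  exact (Nat.div_pos (Nat.le_of_dvd h1 h2) h3).ne'

/-- **Top-level reduction of S16.**  The index of the Eisenstein ideal is `n = num((p-1)/12)` as
soon as (LB) some integral cusp form is `≡ δ mod n` and (UB) every modulus `M` of such a
congruence divides `n`. -/
theorem natCard_eq_of_eisCong
    (hLB : EisCong p (eisensteinNumerator p))
    (hUB : ∀ M : ℕ, M ≠ 0 → EisCong p M → M ∣ eisensteinNumerator p) :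
    Nat.card (↥(heckeLatticeAlgebra p ∅) ⧸
        Ideal.map ((latticeRestrictHom p ∅).toRingHom.comp (heckeEvalForms p 2))
          (eisensteinIdeal p)) =
      eisensteinNumerator p := by
  have hp : p.Prime := Fact.out
  have hn := eisensteinNumerator_ne_zero p hp
  have hδ : EisRel p (sigmaP p) := eisRel_sigmaP
  obtain ⟨f₀, hf₀⟩ := (eisCong_iff p _).mp hLB
  exact natCard_quotient_eq p (eisensteinNumerator p)
    (ub hδ hn (fun M hM h => hUB M hM ((eisCong_iff p M).mpr h)))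
    (lb hδ hn f₀ hf₀)

end Main

end Fermat.Agent.S16B.Reduction
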